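/-
T20 / K6 (helper10): constant terms at the cusps.

For `Γ ≤ SL(2, ℤ)` of finite index, the "constant term" of a modular form `f` along
`γ : SL(2, ℤ)` is the limit of `f ∣[k] γ` at `i∞`.  It is left-`Γ`-invariant and right-`T`-invariant,
its simultaneous vanishing characterises cusp forms, and in weight `2` the sum over
`SL(2, ℤ) ⧸ Γ` vanishes (the trace lands in `M₂(SL(2, ℤ)) = 0`).  Consequently
`dim M₂(Γ) + 1 ≤ dim S₂(Γ) + #(⟨T⟩-orbits on SL(2, ℤ) ⧸ Γ)`.
-/
import Mathlib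

set_option autoImplicit false

open UpperHalfPlane ModularForm MatrixGroups Filter Topology Matrix.SpecialLinearGroup
open scoped Manifold Pointwise

namespace Fermat.Agent.S20_helper10

section Limits

variable {k : ℤ}

/-- A modular form on an arithmetic group has a limit at `i∞`, namely `valueAtInfty`. -/
theorem tendsto_valueAtInfty {𝒢 : Subgroup (GL (Fin 2) ℝ)} [𝒢.IsArithmetic]
    (g : ModularForm 𝒢 k) : Tendsto (g : ℍ → ℂ) atImInfty (𝓝 (valueAtInfty (g : ℍ → ℂ))) := by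
  have hh : 0 < 𝒢.strictWidthInfty := 𝒢.strictWidthInfty_pos
  have hΓ : 𝒢.strictWidthInfty ∈ 𝒢.strictPeriods := 𝒢.strictWidthInfty_mem_strictPeriods
  have hper := SlashInvariantFormClass.periodic_comp_ofComplex (f := g) hΓ
  have han : AnalyticAt ℂ (cuspFunction 𝒢.strictWidthInfty (g : ℍ → ℂ)) 0 :=
    ModularFormClass.analyticAt_cuspFunction_zero g hh hΓ
  have h0 := cuspFunction_apply_zero hh han hper
  have hcomp : (cuspFunction 𝒢.strictWidthInfty (g : ℍ → ℂ) ∘
      fun τ : ℍ => Function.Periodic.qParam 𝒢.strictWidthInfty (τ : ℂ)) = g := by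
    funext τ
    simpa using eq_cuspFunction τ hh.ne' hper
  rw [← h0]
  have := han.continuousAt.tendsto.comp (qParam_tendsto_atImInfty hh)
  rwa [hcomp] at this

/-- Conjugates of arithmetic groups by elements of `SL(2, ℤ)` are arithmetic. -/
theorem isArithmetic_conj (𝒢 : Subgroup (GL (Fin 2) ℝ)) [𝒢.IsArithmetic] (γ : SL(2, ℤ)) :
    (ConjAct.toConjAct (mapGL ℝ γ)⁻¹ • 𝒢).IsArithmetic := by
  constructor
  have h1 : Subgroup.Commensurable 𝒢 𝒮ℒ := Subgroup.IsArithmetic.is_commensurable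
  have h2 := (Subgroup.Commensurable.commensurable_conj (ConjAct.toConjAct (mapGL ℝ γ)⁻¹)).mp h1
  have h3 : ConjAct.toConjAct (mapGL ℝ γ)⁻¹ • 𝒮ℒ = 𝒮ℒ :=
    Subgroup.conj_smul_eq_self_of_mem (inv_mem ⟨γ, rfl⟩)
  rwa [h3] at h2

end Limits

set_option linter.unusedSectionVars false

section Cst

variable {Γ : Subgroup SL(2, ℤ)} [Γ.FiniteIndex] {k : ℤ}

/-- The constant term of `f ∣[k] γ` at `i∞`. -/
noncomputable def cst (f : ModularForm Γ k) (γ : SL(2, ℤ)) : ℂ :=
  valueAtInfty ((f : ℍ → ℂ) ∣[k] γ)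

theorem tendsto_slash (f : ModularForm Γ k) (γ : SL(2, ℤ)) :
    Tendsto ((f : ℍ → ℂ) ∣[k] γ) atImInfty (𝓝 (cst f γ)) := by
  have := isArithmetic_conj (Γ : Subgroup (GL (Fin 2) ℝ)) γ
  exact tendsto_valueAtInfty (ModularForm.translate f (mapGL ℝ γ))

theorem cst_eq_of_tendsto (f : ModularForm Γ k) (γ : SL(2, ℤ)) {c : ℂ}
    (h : Tendsto ((f : ℍ → ℂ) ∣[k] γ) atImInfty (𝓝 c)) : cst f γ = c :=
  tendsto_nhds_unique (tendsto_slash f γ) h

theorem cst_add (f g : ModularForm Γ k) (γ : SL(2, ℤ)) :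
    cst (f + g) γ = cst f γ + cst g γ := by
  apply cst_eq_of_tendsto
  have h := (tendsto_slash f γ).add (tendsto_slash g γ)
  rwa [FunLike.coe_add, SlashAction.add_slash]

theorem cst_smul (c : ℂ) (f : ModularForm Γ k) (γ : SL(2, ℤ)) :
    cst (c • f) γ = c * cst f γ := by
  apply cst_eq_of_tendsto
  have h := (tendsto_slash f γ).const_mul c
  rw [FunLike.coe_smul, SL_smul_slash]
  exact h

/-- Left `Γ`-invariance. -/
theorem cst_mul_left_of_mem (f : ModularForm Γ k) {δ : SL(2, ℤ)} (hδ : δ ∈ Γ) (γ : SL(2, ℤ)) :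
    cst f (δ * γ) = cst f γ := by
  have hδ' : (mapGL ℝ δ) ∈ (Γ : Subgroup (GL (Fin 2) ℝ)) := ⟨δ, hδ, rfl⟩
  have h1 : (f : ℍ → ℂ) ∣[k] δ = f := SlashInvariantFormClass.slash_action_eq f _ hδ'
  unfold cst
  rw [SlashAction.slash_mul, h1]

/-- Right `T`-invariance. -/
theorem cst_mul_T (f : ModularForm Γ k) (γ : SL(2, ℤ)) :
    cst f (γ * ModularGroup.T) = cst f γ := by
  apply cst_eq_of_tendsto
  rw [SlashAction.slash_mul]
  have h := tendsto_slash f γ
  have hT : ∀ τ : ℍ, (((f : ℍ → ℂ) ∣[k] γ) ∣[k] ModularGroup.T) τ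
      = ((f : ℍ → ℂ) ∣[k] γ) ((1 : ℝ) +ᵥ τ) := by
    intro τ
    rw [SL_slash_apply, modular_T_smul]
    simp [denom, ModularGroup.T]
  have h2 : Tendsto (fun τ : ℍ => (1 : ℝ) +ᵥ τ) atImInfty atImInfty := by
    rw [atImInfty, tendsto_comap_iff]
    have : (im ∘ fun τ : ℍ => (1 : ℝ) +ᵥ τ) = im := by
      funext τ; simp
    rw [this]
    exact tendsto_comap
  exact (h.comp h2).congr (fun τ => (hT τ).symm)

/-- A modular form all of whose constant terms vanish is a cusp form. -/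
theorem exists_cuspForm_of_cst_eq_zero (f : ModularForm Γ k) (h : ∀ γ, cst f γ = 0) :
    ∃ g : CuspForm Γ k, CuspForm.toModularFormₗ g = f := by
  refine ⟨{ toSlashInvariantForm := f.toSlashInvariantForm, holo' := f.holo',
            zero_at_cusps' := ?_ }, ?_⟩
  · intro c hc
    rw [Subgroup.IsArithmetic.isCusp_iff_isCusp_SL2Z] at hc
    rw [OnePoint.isZeroAt_iff_forall_SL2Z hc]
    intro γ _
    have := tendsto_slash f γ
    rw [h γ] at this
    exact this
  · ext τ; rfl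

/-- Constant terms of cusp forms vanish. -/
theorem cst_toModularForm (g : CuspForm Γ k) (γ : SL(2, ℤ)) :
    cst (CuspForm.toModularFormₗ g) γ = 0 := by
  apply cst_eq_of_tendsto
  have hc : IsCusp (mapGL ℝ γ • OnePoint.infty) (Γ : Subgroup (GL (Fin 2) ℝ)) := by
    rw [Subgroup.IsArithmetic.isCusp_iff_isCusp_SL2Z, isCusp_SL2Z_iff']
    exact ⟨γ, rfl⟩
  exact g.zero_at_cusps' hc (mapGL ℝ γ) rfl

end Cst

section Trace

variable {Γ : Subgroup SL(2, ℤ)} [Γ.FiniteIndex] {k : ℤ}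

/-- `f ∣[k] γ⁻¹` only depends on the coset `γ Γ`. -/
noncomputable def cosetSlash (f : ModularForm Γ k) (x : SL(2, ℤ) ⧸ Γ) : ℍ → ℂ :=
  Quotient.liftOn' x (fun γ => (f : ℍ → ℂ) ∣[k] γ⁻¹) (by
    intro a b hab
    rw [QuotientGroup.leftRel_apply] at hab
    have hmem : b⁻¹ * a ∈ Γ := by
      have := Γ.inv_mem hab
      rwa [mul_inv_rev, inv_inv] at this
    have hmem' : (mapGL ℝ (b⁻¹ * a)) ∈ (Γ : Subgroup (GL (Fin 2) ℝ)) := ⟨_, hmem, rfl⟩
    have h1 : (f : ℍ → ℂ) ∣[k] (b⁻¹ * a) = f :=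
      SlashInvariantFormClass.slash_action_eq f _ hmem'
    show (f : ℍ → ℂ) ∣[k] a⁻¹ = (f : ℍ → ℂ) ∣[k] b⁻¹
    have h2 : b⁻¹ = (b⁻¹ * a) * a⁻¹ := by group
    conv_rhs => rw [h2, SlashAction.slash_mul, h1])

@[simp] theorem cosetSlash_mk (f : ModularForm Γ k) (γ : SL(2, ℤ)) :
    cosetSlash f (γ : SL(2, ℤ) ⧸ Γ) = (f : ℍ → ℂ) ∣[k] γ⁻¹ := rfl

theorem cosetSlash_slash (f : ModularForm Γ k) (x : SL(2, ℤ) ⧸ Γ) (γ₀ : SL(2, ℤ)) :
    (cosetSlash f x) ∣[k] γ₀ = cosetSlash f (γ₀⁻¹ • x) := by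
  induction x using QuotientGroup.induction_on with
  | H γ =>
    rw [MulAction.Quotient.smul_mk, cosetSlash_mk, cosetSlash_mk, ← SlashAction.slash_mul]
    congr 1
    simp [smul_eq_mul, mul_inv_rev]

/-- The constant term attached to a coset. -/
noncomputable def cstQ (f : ModularForm Γ k) (x : SL(2, ℤ) ⧸ Γ) : ℂ :=
  valueAtInfty (cosetSlash f x)

@[simp] theorem cstQ_mk (f : ModularForm Γ k) (γ : SL(2, ℤ)) :
    cstQ f (γ : SL(2, ℤ) ⧸ Γ) = cst f γ⁻¹ := rfl

theorem tendsto_cosetSlash (f : ModularForm Γ k) (x : SL(2, ℤ) ⧸ Γ) :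
    Tendsto (cosetSlash f x) atImInfty (𝓝 (cstQ f x)) := by
  induction x using QuotientGroup.induction_on with
  | H γ => exact tendsto_slash f γ⁻¹

attribute [local instance] Subgroup.fintypeQuotientOfFiniteIndex

theorem tendsto_sum_cosetSlash (f : ModularForm Γ k) :
    Tendsto (∑ x : SL(2, ℤ) ⧸ Γ, cosetSlash f x) atImInfty
      (𝓝 (∑ x : SL(2, ℤ) ⧸ Γ, cstQ f x)) := by
  have := tendsto_finsetSum (Finset.univ : Finset (SL(2, ℤ) ⧸ Γ))
    (fun x _ => tendsto_cosetSlash f x)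
  refine this.congr (fun τ => ?_)
  simp [Finset.sum_apply]

/-- The trace of `f` to level one. -/
noncomputable def traceForm (f : ModularForm Γ k) : ModularForm 𝒮ℒ k where
  toFun := ∑ x : SL(2, ℤ) ⧸ Γ, cosetSlash f x
  slash_action_eq' := by
    rintro _ ⟨γ₀, rfl⟩
    show (∑ x : SL(2, ℤ) ⧸ Γ, cosetSlash f x) ∣[k] γ₀ = _
    rw [SlashAction.sum_slash]
    simp_rw [cosetSlash_slash]
    exact Equiv.sum_comp (MulAction.toPerm γ₀⁻¹) (cosetSlash f)
  holo' := by
    apply MDifferentiable.sum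
    intro x _
    induction x using QuotientGroup.induction_on with
    | H γ => exact (ModularFormClass.holo f).slash k _
  bdd_at_cusps' := by
    intro c hc
    rw [OnePoint.isBoundedAt_iff_forall_SL2Z hc]
    intro γ₀ _
    have h1 : (∑ x : SL(2, ℤ) ⧸ Γ, cosetSlash f x) ∣[k] γ₀
        = ∑ x : SL(2, ℤ) ⧸ Γ, cosetSlash f x := by
      rw [SlashAction.sum_slash]
      simp_rw [cosetSlash_slash]
      exact Equiv.sum_comp (MulAction.toPerm γ₀⁻¹) (cosetSlash f)
    show IsBoundedAtImInfty ((∑ x : SL(2, ℤ) ⧸ Γ, cosetSlash f x) ∣[k] γ₀)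
    rw [h1]
    exact (tendsto_sum_cosetSlash f).isBigO_one ℝ

theorem traceForm_apply (f : ModularForm Γ k) (τ : ℍ) :
    traceForm f τ = ∑ x : SL(2, ℤ) ⧸ Γ, cosetSlash f x τ := by
  show (∑ x : SL(2, ℤ) ⧸ Γ, cosetSlash f x) τ = _
  simp [Finset.sum_apply]

/-- In weight `2` the constant terms over all cosets sum to zero. -/
theorem sum_cstQ_eq_zero (f : ModularForm Γ 2) : ∑ x : SL(2, ℤ) ⧸ Γ, cstQ f x = 0 := by
  have h0 : traceForm f = 0 := by
    have := ModularForm.levelOne_weight_two_rank_zero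
    exact (rank_zero_iff_forall_zero.mp this) _
  have h1 := tendsto_sum_cosetSlash f
  have h2 : (∑ x : SL(2, ℤ) ⧸ Γ, cosetSlash f x) = 0 := by
    funext τ
    have := congrArg (fun g : ModularForm 𝒮ℒ 2 => g τ) h0
    simpa [traceForm_apply, Finset.sum_apply] using this
  rw [h2] at h1
  exact tendsto_nhds_unique h1 tendsto_const_nhds

end Trace

section Orbits

variable {Γ : Subgroup SL(2, ℤ)} [Γ.FiniteIndex] {k : ℤ}

attribute [local instance] Subgroup.fintypeQuotientOfFiniteIndex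

/-- The set of `⟨T⟩`-orbits on `SL(2, ℤ) ⧸ Γ` ("cusps"). -/
abbrev CuspOrb (Γ : Subgroup SL(2, ℤ)) : Type :=
  MulAction.orbitRel.Quotient (Subgroup.zpowers ModularGroup.T) (SL(2, ℤ) ⧸ Γ)

theorem cstQ_T_smul (f : ModularForm Γ k) (x : SL(2, ℤ) ⧸ Γ) :
    cstQ f (ModularGroup.T • x) = cstQ f x := by
  induction x using QuotientGroup.induction_on with
  | H γ =>
    rw [MulAction.Quotient.smul_mk, cstQ_mk, cstQ_mk, smul_eq_mul, mul_inv_rev]
    have := cst_mul_T f (γ⁻¹ * ModularGroup.T⁻¹)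
    rw [mul_assoc, inv_mul_cancel, mul_one] at this
    exact this.symm

theorem cstQ_T_inv_smul (f : ModularForm Γ k) (x : SL(2, ℤ) ⧸ Γ) :
    cstQ f (ModularGroup.T⁻¹ • x) = cstQ f x := by
  have := cstQ_T_smul f (ModularGroup.T⁻¹ • x)
  rwa [smul_inv_smul, eq_comm] at this

theorem cstQ_T_zpow_smul (f : ModularForm Γ k) (n : ℤ) (x : SL(2, ℤ) ⧸ Γ) :
    cstQ f (ModularGroup.T ^ n • x) = cstQ f x := by
  induction n using Int.induction_on generalizing x with
  | zero => simp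
  | succ n ih => rw [zpow_add_one, mul_smul, ih, cstQ_T_smul]
  | pred n ih => rw [zpow_sub_one, mul_smul, ih, cstQ_T_inv_smul]

theorem cstQ_zpowers_smul (f : ModularForm Γ k) (t : Subgroup.zpowers ModularGroup.T)
    (x : SL(2, ℤ) ⧸ Γ) : cstQ f (t • x) = cstQ f x := by
  obtain ⟨t, n, rfl⟩ := t
  exact cstQ_T_zpow_smul f n x

/-- The constant term as a function on `⟨T⟩`-orbits. -/
noncomputable def cstOrb (f : ModularForm Γ k) : CuspOrb Γ → ℂ :=
  Quotient.lift (s := MulAction.orbitRel _ _) (cstQ f) (by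
    rintro a b ⟨t, rfl⟩
    exact cstQ_zpowers_smul f t b)

@[simp] theorem cstOrb_mk (f : ModularForm Γ k) (x : SL(2, ℤ) ⧸ Γ) :
    cstOrb f (Quotient.mk (MulAction.orbitRel _ _) x) = cstQ f x := rfl

/-- The constant-term map, as a linear map to functions on the cusps. -/
noncomputable def cstLin (Γ : Subgroup SL(2, ℤ)) [Γ.FiniteIndex] (k : ℤ) :
    ModularForm Γ k →ₗ[ℂ] (CuspOrb Γ → ℂ) where
  toFun f := cstOrb f
  map_add' f g := by
    funext ω
    induction ω using Quotient.inductionOn with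
    | h x =>
      induction x using QuotientGroup.induction_on with
      | H γ => exact cst_add f g γ⁻¹
  map_smul' c f := by
    funext ω
    induction ω using Quotient.inductionOn with
    | h x =>
      induction x using QuotientGroup.induction_on with
      | H γ => exact cst_smul c f γ⁻¹

theorem cstLin_apply_mk (f : ModularForm Γ k) (γ : SL(2, ℤ)) :
    cstLin Γ k f (Quotient.mk (MulAction.orbitRel _ _) (γ : SL(2, ℤ) ⧸ Γ)) = cst f γ⁻¹ := rfl

theorem cstLin_eq_zero_iff (f : ModularForm Γ k) : cstLin Γ k f = 0 ↔ ∀ γ, cst f γ = 0 := by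
  constructor
  · intro h γ
    have := congrFun h (Quotient.mk (MulAction.orbitRel _ _) ((γ⁻¹ : SL(2, ℤ)) : SL(2, ℤ) ⧸ Γ))
    rwa [cstLin_apply_mk, inv_inv] at this
  · intro h
    funext ω
    induction ω using Quotient.inductionOn with
    | h x =>
      induction x using QuotientGroup.induction_on with
      | H γ => exact h γ⁻¹

theorem ker_cstLin :
    LinearMap.ker (cstLin Γ k) = LinearMap.range (CuspForm.toModularFormₗ (Γ := Γ) (k := k)) := by
  ext f
  rw [LinearMap.mem_ker, cstLin_eq_zero_iff, LinearMap.mem_range]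
  constructor
  · intro h
    exact exists_cuspForm_of_cst_eq_zero f h
  · rintro ⟨g, rfl⟩ γ
    exact cst_toModularForm g γ

/-- The functional "sum over all cosets" on functions on the cusps. -/
noncomputable def sumFunctional (Γ : Subgroup SL(2, ℤ)) [Γ.FiniteIndex] :
    (CuspOrb Γ → ℂ) →ₗ[ℂ] ℂ where
  toFun ψ := ∑ x : SL(2, ℤ) ⧸ Γ, ψ (Quotient.mk (MulAction.orbitRel _ _) x)
  map_add' ψ φ := by simp [Finset.sum_add_distrib]
  map_smul' c ψ := by simp [Finset.mul_sum]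

theorem sumFunctional_cstLin (f : ModularForm Γ 2) : sumFunctional Γ (cstLin Γ 2 f) = 0 :=
  sum_cstQ_eq_zero f

theorem range_cstLin_le : LinearMap.range (cstLin Γ 2) ≤ LinearMap.ker (sumFunctional Γ) := by
  rintro _ ⟨f, rfl⟩
  exact sumFunctional_cstLin f

theorem sumFunctional_surjective : Function.Surjective (sumFunctional Γ) := by
  intro c
  have hcard : (Fintype.card (SL(2, ℤ) ⧸ Γ) : ℂ) ≠ 0 := by
    have : 0 < Fintype.card (SL(2, ℤ) ⧸ Γ) := Fintype.card_pos
    exact_mod_cast this.ne'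
  refine ⟨fun _ => c / Fintype.card (SL(2, ℤ) ⧸ Γ), ?_⟩
  show ∑ _x : SL(2, ℤ) ⧸ Γ, c / Fintype.card (SL(2, ℤ) ⧸ Γ) = c
  rw [Finset.sum_const, Finset.card_univ, nsmul_eq_mul, mul_div_cancel₀ _ hcard]

instance : Finite (CuspOrb Γ) := Quotient.finite _

instance : Nonempty (CuspOrb Γ) := ⟨Quotient.mk (MulAction.orbitRel _ _) ((1 : SL(2, ℤ)) : SL(2, ℤ) ⧸ Γ)⟩

theorem finrank_ker_sumFunctional :
    Module.finrank ℂ (LinearMap.ker (sumFunctional Γ)) + 1 = Nat.card (CuspOrb Γ) := by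
  classical
  let _ := Fintype.ofFinite (CuspOrb Γ)
  have h := LinearMap.finrank_range_add_finrank_ker (sumFunctional Γ)
  rw [LinearMap.range_eq_top.mpr sumFunctional_surjective, finrank_top,
    Module.finrank_self, Module.finrank_fintype_fun_eq_card] at h
  rw [Nat.card_eq_fintype_card]
  omega

/-- Finite-dimensionality passes from cusp forms to modular forms. -/
theorem finiteDimensional_modularForm [FiniteDimensional ℂ (CuspForm Γ k)] :
    FiniteDimensional ℂ (ModularForm Γ k) := by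
  classical
  let _ := Fintype.ofFinite (CuspOrb Γ)
  have : Module.Finite ℂ (LinearMap.ker (cstLin Γ k)) := by
    rw [ker_cstLin]
    exact Module.Finite.range _
  have : Module.Finite ℂ (ModularForm Γ k ⧸ LinearMap.ker (cstLin Γ k)) :=
    Module.Finite.equiv (cstLin Γ k).quotKerEquivRange.symm
  exact Module.Finite.of_submodule_quotient (LinearMap.ker (cstLin Γ k))

/-- **K6**: `dim M₂(Γ) + 1 ≤ dim S₂(Γ) + #cusps`. -/
theorem finrank_modularForm_add_one_le :
    Module.finrank ℂ (ModularForm Γ 2) + 1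
      ≤ Module.finrank ℂ (CuspForm Γ 2) + Nat.card (CuspOrb Γ) := by
  classical
  by_cases hfin : Module.Finite ℂ (ModularForm Γ 2)
  · let _ := Fintype.ofFinite (CuspOrb Γ)
    have h1 := LinearMap.finrank_range_add_finrank_ker (cstLin Γ 2)
    have h2 : Module.finrank ℂ (LinearMap.range (cstLin Γ 2))
        ≤ Module.finrank ℂ (LinearMap.ker (sumFunctional Γ)) :=
      Submodule.finrank_mono range_cstLin_le
    have h3 : Module.finrank ℂ (LinearMap.ker (cstLin Γ 2)) = Module.finrank ℂ (CuspForm Γ 2) := by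
      rw [ker_cstLin]
      exact LinearMap.finrank_range_of_inj CuspForm.toModularFormₗ_injective
    have h4 := finrank_ker_sumFunctional (Γ := Γ)
    omega
  · rw [Module.finrank_of_not_finite hfin]
    have : 0 < Nat.card (CuspOrb Γ) := Nat.card_pos
    omega

/-- **K6 for `Γ₀(N)`**: `dim M₂(Γ₀(N)) + 1 ≤ dim S₂(Γ₀(N)) + #(⟨T⟩-orbits on SL(2,ℤ) ⧸ Γ₀(N))`. -/
theorem finrank_modularForm_gamma0_add_one_le (N : ℕ) [NeZero N] :
    Module.finrank ℂ (ModularForm (CongruenceSubgroup.Gamma0 N) 2) + 1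
      ≤ Module.finrank ℂ (CuspForm (CongruenceSubgroup.Gamma0 N) 2)
        + Nat.card (MulAction.orbitRel.Quotient (Subgroup.zpowers ModularGroup.T)
            (SL(2, ℤ) ⧸ CongruenceSubgroup.Gamma0 N)) :=
  finrank_modularForm_add_one_le

end Orbits

end Fermat.Agent.S20_helper10
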