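/-
T20 / J3 (helper10): surjectivity of the modular `j`-function, stated for the raw expression
`E₄ τ ^ 3 / Δ τ` (Mathlib's `EisensteinSeries`/`ModularForm.E₄` and `ModularForm.discriminant`).

Route: for `c : ℂ` the weight-12 level-one form `E₄ ^ 3 - c • Δ` tends to `1` at `i∞`; if it had
no zero on `ℍ`, its inverse would be a level-one modular form of weight `-12`, hence zero.
-/
import Mathlib

set_option autoImplicit false

open UpperHalfPlane ModularForm EisensteinSeries MatrixGroups Filter Topology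
open scoped Manifold

namespace Fermat.Agent.S20_helper10

local notation "Δ" => ModularForm.discriminant

/-- `E₄ → 1` at `i∞`. -/
theorem tendsto_E4_atImInfty : Tendsto (E₄ : ℍ → ℂ) atImInfty (𝓝 1) := by
  have hper := SlashInvariantFormClass.periodic_comp_ofComplex (f := E₄) one_mem_strictPeriods_SL
  have han : AnalyticAt ℂ (cuspFunction 1 (E₄ : ℍ → ℂ)) 0 :=
    ModularFormClass.analyticAt_cuspFunction_zero E₄ one_pos one_mem_strictPeriods_SL
  have h0 : cuspFunction 1 (E₄ : ℍ → ℂ) 0 = 1 := by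
    have := EisensteinSeries.E_qExpansion_coeff_zero (k := 4) (by norm_num) ⟨2, rfl⟩
    simpa [qExpansion_coeff] using this
  have hcomp : (cuspFunction 1 (E₄ : ℍ → ℂ) ∘ fun τ : ℍ => Function.Periodic.qParam 1 (τ : ℂ))
      = E₄ := by
    funext τ
    simpa using eq_cuspFunction τ one_ne_zero hper
  rw [← h0, ← hcomp]
  have := han.continuousAt.tendsto.comp (qParam_tendsto_atImInfty one_pos)
  rwa [hcomp] at this ⊢

/-- The weight-12 level-one form `E₄ ^ 3 - c • Δ`. -/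
noncomputable def jAux (c : ℂ) : ModularForm 𝒮ℒ 12 :=
  ModularForm.mcast (by decide) (E₄.pow 3) - c • CuspForm.toModularFormₗ CuspForm.discriminant

theorem jAux_apply (c : ℂ) (τ : ℍ) : jAux c τ = E₄ τ ^ 3 - c * Δ τ := by
  have h : (E₄.pow 3) τ = E₄ τ ^ 3 := by
    have := congrFun (ModularForm.coe_pow E₄ 3) τ
    simpa using this
  simp [jAux, ModularForm.mcast_apply, h]

theorem tendsto_jAux (c : ℂ) : Tendsto (jAux c : ℍ → ℂ) atImInfty (𝓝 1) := by
  have h1 : Tendsto (fun τ : ℍ => E₄ τ ^ 3 - c * Δ τ) atImInfty (𝓝 (1 ^ 3 - c * 0)) :=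
    (tendsto_E4_atImInfty.pow 3).sub (discriminant_isZeroAtImInfty.const_mul c)
  have h2 : (fun τ : ℍ => E₄ τ ^ 3 - c * Δ τ) = (jAux c : ℍ → ℂ) := by
    funext τ; rw [jAux_apply]
  rw [h2] at h1
  simpa using h1

/-- `E₄ ^ 3 - c • Δ` has a zero on the upper half plane. -/
theorem exists_jAux_eq_zero (c : ℂ) : ∃ τ : ℍ, jAux c τ = 0 := by
  by_contra hne
  push Not at hne
  -- the inverse is a modular form of weight `-12`
  have hslash : ∀ γ : SL(2, ℤ), (fun z => (jAux c z)⁻¹) ∣[(-12 : ℤ)] γ = fun z => (jAux c z)⁻¹ := by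
    intro γ
    have hγ : (γ : GL (Fin 2) ℝ) ∈ 𝒮ℒ := ⟨γ, rfl⟩
    have h1 : (fun z => (jAux c z)⁻¹) = (1 : ℍ → ℂ) / ⇑(jAux c) := by
      funext z; simp
    rw [h1, show (-12 : ℤ) = 0 - 12 by norm_num, div_slash_SL2, is_invariant_one, SL_slash,
      SlashInvariantFormClass.slash_action_eq (jAux c) _ hγ]
  let g : ModularForm 𝒮ℒ (-12) :=
    { toFun := fun z => (jAux c z)⁻¹
      slash_action_eq' := fun _ ⟨γ, hγ⟩ => hγ ▸ hslash γ
      holo' := by
        have h1 : (fun z => (jAux c z)⁻¹) = (1 : ℍ → ℂ) / ⇑(jAux c) := by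
          funext z; simp
        show MDiff (fun z => (jAux c z)⁻¹)
        rw [h1]
        exact (mdifferentiable_const (c := (1 : ℂ))).div (jAux c).holo' hne
      bdd_at_cusps' := by
        intro cu hc
        rw [Subgroup.IsArithmetic.isCusp_iff_isCusp_SL2Z] at hc
        rw [OnePoint.isBoundedAt_iff_forall_SL2Z hc]
        intro γ _
        rw [hslash γ]
        have ht : Tendsto (fun z : ℍ => (jAux c z)⁻¹) atImInfty (𝓝 (1 : ℂ)⁻¹) :=
          (tendsto_jAux c).inv₀ one_ne_zero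
        exact ht.isBigO_one ℝ }
  have hg : (g : ℍ → ℂ) = 0 := ModularFormClass.levelOne_neg_weight_eq_zero (by norm_num) g
  have := congrFun hg UpperHalfPlane.I
  exact inv_ne_zero (hne UpperHalfPlane.I) this

/-- **Surjectivity of `j`** in raw form: every complex number is a value of `E₄ ^ 3 / Δ`. -/
theorem exists_E4_cube_div_discriminant_eq (c : ℂ) : ∃ τ : ℍ, E₄ τ ^ 3 / Δ τ = c := by
  obtain ⟨τ, hτ⟩ := exists_jAux_eq_zero c
  refine ⟨τ, ?_⟩
  rw [jAux_apply, sub_eq_zero] at hτ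
  rw [hτ, mul_div_assoc, div_self (discriminant_ne_zero τ), mul_one]

/-- **Surjectivity of `j`**. -/
theorem jFun_surjective : Function.Surjective (fun τ : ℍ => E₄ τ ^ 3 / Δ τ) :=
  fun c => exists_E4_cube_div_discriminant_eq c

/-- `SL(2,ℤ)`-invariance of `E₄ ^ 3 / Δ`. -/
theorem E4_cube_div_discriminant_smul (γ : SL(2, ℤ)) (τ : ℍ) :
    E₄ (γ • τ) ^ 3 / Δ (γ • τ) = E₄ τ ^ 3 / Δ τ := by
  have hγ : (γ : GL (Fin 2) ℝ) ∈ 𝒮ℒ := ⟨γ, rfl⟩
  have h4 : E₄ (γ • τ) = denom (γ : GL (Fin 2) ℝ) τ ^ ((4 : ℕ) : ℤ) * E₄ τ :=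
    SlashInvariantForm.slash_action_eqn'' E₄ hγ τ
  have h12 : Δ (γ • τ) = denom (γ : GL (Fin 2) ℝ) τ ^ (12 : ℤ) * Δ τ :=
    SlashInvariantForm.slash_action_eqn'' CuspForm.discriminant hγ τ
  have hd : denom (γ : GL (Fin 2) ℝ) τ ≠ 0 := denom_ne_zero _ τ
  rw [h4, h12, mul_pow, ← zpow_natCast, ← zpow_mul]
  have : denom (γ : GL (Fin 2) ℝ) τ ^ (((4 : ℕ) : ℤ) * ((3 : ℕ) : ℤ))
      = denom (γ : GL (Fin 2) ℝ) τ ^ (12 : ℤ) := by norm_num
  rw [this, mul_div_mul_left _ _ (zpow_ne_zero _ hd)]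

/-- `E₄ ^ 3 / Δ` is holomorphic on the upper half plane. -/
theorem mdifferentiable_E4_cube_div_discriminant :
    MDiff (fun τ : ℍ => E₄ τ ^ 3 / Δ τ) := by
  have h1 : (fun τ : ℍ => E₄ τ ^ 3 / Δ τ) = (⇑E₄ ^ 3) / ⇑CuspForm.discriminant := by
    funext τ; simp
  rw [h1]
  exact (E₄.holo'.pow 3).div CuspForm.discriminant.holo' discriminant_ne_zero

/-- `|E₄ ^ 3 / Δ| → ∞` at `i∞`. -/
theorem tendsto_norm_E4_cube_div_discriminant :
    Tendsto (fun τ : ℍ => ‖E₄ τ ^ 3 / Δ τ‖) atImInfty atTop := by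
  have h1 : Tendsto (fun τ : ℍ => Δ τ / E₄ τ ^ 3) atImInfty (𝓝 (0 / 1 ^ 3)) :=
    discriminant_isZeroAtImInfty.div (tendsto_E4_atImInfty.pow 3) (by norm_num)
  rw [zero_div] at h1
  have h2 : Tendsto (fun τ : ℍ => ‖Δ τ / E₄ τ ^ 3‖) atImInfty (𝓝[>] 0) := by
    rw [tendsto_nhdsWithin_iff]
    refine ⟨by simpa using h1.norm, ?_⟩
    have hE : ∀ᶠ τ : ℍ in atImInfty, E₄ τ ≠ 0 :=
      tendsto_E4_atImInfty.eventually_ne one_ne_zero
    filter_upwards [hE] with τ hτ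
    simp only [Set.mem_Ioi, norm_pos_iff]
    exact div_ne_zero (discriminant_ne_zero τ) (pow_ne_zero _ hτ)
  have h3 := h2.inv_tendsto_nhdsGT_zero
  refine h3.congr (fun τ => ?_)
  simp

end Fermat.Agent.S20_helper10
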